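import Mathlib
import Fermat.Prelude.Def_ModularCurve_PeriodHomPair
import Fermat.Prelude.Def_CuspForm_HeckeAlgebra
import Fermat.Prelude.Sol.S_ModularForm_heckeT_slash_eq_self_of_mem_Gamma0
import Fermat.Agent.S21.Primitive
import Fermat.Agent.S22.EichlerHecke
import Fermat.Agent.S22.Unique
import Fermat.Agent.S22.Bol

/-!
# S16 (EX), step 3: periods of `T_ℓ f` and `U_p f` through coset representatives

For `f ∈ S₂(Γ₀(N))`, `γ ∈ Γ₀(N)` and a family `δ x ∈ Γ₀(N)` with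
`α_x γ = δ_x α_(σ x)` (`α_x` the standard Hecke representatives, `σ` a permutation) we prove
`periodMap (T_ℓ f) γ = ∑ x, periodMap f (δ x)` and the analogous formula for `U_p`.
-/

set_option autoImplicit false

open UpperHalfPlane hiding I
open Complex Filter Function Topology
open scoped MatrixGroups Manifold ModularForm Real
open Derivative
open CongruenceSubgroup ModularCurve ModularCurve.Period
open Matrix.SpecialLinearGroup
open P2MW.S_ModularForm_heckeT_slash_eq_self_of_mem_Gamma0.ModularForm.HeckeSlashInvariance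

namespace Fermat.Agent.S16.EX

/-- Abstract telescoping identity: if `F` has "periods" `φ` along `Γ₀(N)` and the finite family
`M` of elements of `GL₂(ℝ)` is permuted by right multiplication with `γ` up to left factors
`δ x ∈ Γ₀(N)`, then `∑ F ∘ M x` has period `∑ φ (δ x)` along `γ`. -/
theorem sum_comp_smul_sub {N : ℕ} {F : ℍ → ℂ} {φ : Gamma0 N → ℂ}
    (hF : ∀ (δ : Gamma0 N) (z : ℍ), F ((δ : SL(2, ℤ)) • z) - F z = φ δ)
    {ι : Type*} [Fintype ι] (M : ι → GL (Fin 2) ℝ) (σ : Equiv.Perm ι) (γ : Gamma0 N)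
    (δ : ι → Gamma0 N)
    (hmul : ∀ x, M x * mapGL ℝ (γ : SL(2, ℤ)) = mapGL ℝ (δ x : SL(2, ℤ)) * M (σ x)) (z : ℍ) :
    ∑ x, F (M x • ((γ : SL(2, ℤ)) • z)) - ∑ x, F (M x • z) = ∑ x, φ (δ x) := by
  have step : ∀ x, F (M x • ((γ : SL(2, ℤ)) • z)) = F (M (σ x) • z) + φ (δ x) := by
    intro x
    have h1 : M x • ((γ : SL(2, ℤ)) • z) = (δ x : SL(2, ℤ)) • (M (σ x) • z) := by
      have e1 : (γ : SL(2, ℤ)) • z = mapGL ℝ (γ : SL(2, ℤ)) • z := rfl
      have e2 : (δ x : SL(2, ℤ)) • (M (σ x) • z) = mapGL ℝ (δ x : SL(2, ℤ)) • (M (σ x) • z) := rfl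
      rw [e1, e2, ← mul_smul, ← mul_smul, hmul x]
    rw [h1, ← hF (δ x) (M (σ x) • z)]
    ring
  simp_rw [step]
  rw [Finset.sum_add_distrib, Equiv.sum_comp σ (fun x => F (M x • z))]
  ring

/-- `2πi • F` is a `D`-primitive of `f` when `F` is an S21-primitive. -/
theorem D_two_pi_I_smul {N : ℕ} {f : CuspForm (Gamma0 N) 2} {F : ℍ → ℂ}
    (hF : HasEquivariantPrimitive N f F) :
    D ((2 * π * I : ℂ) • F) = ⇑f := by
  funext τ
  rw [Fermat.Agent.S22.Bol.D_apply]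
  have h := (hF.1 τ).const_smul (2 * π * I : ℂ)
  have e : ((2 * π * I : ℂ) • F) ∘ ofComplex = (2 * π * I : ℂ) • (F ∘ ofComplex) := rfl
  rw [e, h.deriv, smul_eq_mul]
  have h2pi : (2 * π * I : ℂ) ≠ 0 := Complex.two_pi_I_ne_zero
  field_simp

/-- Uniqueness: a holomorphic `D`-primitive of `g` vanishing at `i∞` is `2πi •` the S21-primitive. -/
theorem eq_two_pi_I_smul_of_D_eq {N : ℕ} {g : CuspForm (Gamma0 N) 2} {G : ℍ → ℂ}
    (hG : HasEquivariantPrimitive N g G) (hGd : MDiff G) {B : ℍ → ℂ} (hB : MDiff B)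
    (hDB : D B = ⇑g) (hzB : IsZeroAtImInfty B) :
    B = (2 * π * I : ℂ) • G := by
  refine Fermat.Agent.S22.Unique.eq_of_iterate_D_eq
    (fun n _ hG h => Fermat.Agent.S22.Bol.exists_polynomial_of_iterate_D_eq_zero n hG h)
    1 hB (hGd.const_smul _) ?_ hzB ?_
  · rw [Function.iterate_one, hDB, D_two_pi_I_smul hG]
  · have h : Tendsto (fun x => ((2 * π * I : ℂ)) • G x) atImInfty
        (𝓝 (((2 * π * I : ℂ)) • (0 : ℂ))) := Filter.Tendsto.const_smul hG.2.1 _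
    rw [smul_zero] at h
    exact h

/-- Weight `0`: `ℓ • T_ℓ A` is the sum of `A` over the Hecke representatives. -/
theorem heckeT_zero_apply {ℓ : ℕ} [Fact ℓ.Prime] (A : ℍ → ℂ) (z : ℍ) :
    (((ℓ : ℂ) ^ (0 + 1)) • ModularForm.heckeT (-((0 : ℕ) : ℤ)) ℓ A) z =
      ∑ x : OnePoint (ZMod ℓ), A (heckeRep ℓ x • z) := by
  have hℓ : ℓ ≠ 0 := (Fact.out : ℓ.Prime).ne_zero
  have hℓ' : (ℓ : ℂ) ≠ 0 := by exact_mod_cast hℓ
  rw [heckeT_eq_sum_onePoint]
  simp only [Pi.smul_apply, Finset.sum_apply, smul_eq_mul, Finset.mul_sum]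
  refine Finset.sum_congr rfl fun x _ => ?_
  induction x using OnePoint.rec with
  | infty =>
    rw [heckeRep_infty, ModularForm.slash_heckeDiagMatrix_apply _ hℓ]
    simp only [Nat.cast_zero, neg_zero, zero_sub, zero_add, pow_one, zpow_neg_one]
    rw [← mul_assoc, mul_inv_cancel₀ hℓ', one_mul]
  | coe j =>
    rw [heckeRep_coe, ModularForm.slash_heckeMatrix_apply _ hℓ]
    simp only [zero_add, pow_one]
    rw [← mul_assoc, mul_inv_cancel₀ hℓ', one_mul]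

/-- **Bridge for `T_ℓ`** (`ℓ ∤ N`): the period of `T_ℓ f` along `γ` is the sum of the periods of
`f` along the elements `δ x` with `α_x γ = δ_x α_(γ·x)`. -/
theorem periodMap_heckeT {N : ℕ} [NeZero N] {ℓ : ℕ} [Fact ℓ.Prime] (hℓN : ¬ ℓ ∣ N)
    (f : CuspForm (Gamma0 N) 2) (γ : Gamma0 N) (σ : Equiv.Perm (OnePoint (ZMod ℓ)))
    (δ : OnePoint (ZMod ℓ) → Gamma0 N)
    (hmul : ∀ x, heckeRep ℓ x * mapGL ℝ (γ : SL(2, ℤ)) =
      mapGL ℝ (δ x : SL(2, ℤ)) * heckeRep ℓ (σ x)) :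
    periodMap N (CuspForm.heckeTLin 2 (Fact.out : ℓ.Prime) hℓN f) (Additive.ofMul γ) =
      ∑ x, periodMap N f (Additive.ofMul (δ x)) := by
  have hℓ : ℓ ≠ 0 := (Fact.out : ℓ.Prime).ne_zero
  have h2pi : (2 * π * I : ℂ) ≠ 0 := Complex.two_pi_I_ne_zero
  obtain ⟨F, hF, hFd⟩ := Fermat.Agent.S21.exists_hasEquivariantPrimitive N f
  obtain ⟨G, hG, hGd⟩ := Fermat.Agent.S21.exists_hasEquivariantPrimitive N
    (CuspForm.heckeTLin 2 (Fact.out : ℓ.Prime) hℓN f)
  set A : ℍ → ℂ := (2 * π * I : ℂ) • F with hAdef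
  have hA : MDiff A := hFd.const_smul _
  have hDA : D A = ⇑f := D_two_pi_I_smul hF
  have hAz : IsZeroAtImInfty A := by
    have h : Tendsto (fun x => ((2 * π * I : ℂ)) • F x) atImInfty
        (𝓝 (((2 * π * I : ℂ)) • (0 : ℂ))) := Filter.Tendsto.const_smul hF.2.1 _
    rw [smul_zero] at h
    exact h
  obtain ⟨h1, h2, h3⟩ := Fermat.Agent.S22.EichlerHecke.eichler_heckeT 0 hℓ hA hAz
  have hB : ((ℓ : ℂ) ^ (0 + 1)) • ModularForm.heckeT (-((0 : ℕ) : ℤ)) ℓ A = (2 * π * I : ℂ) • G := by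
    refine eq_two_pi_I_smul_of_D_eq hG hGd h1 ?_ h3
    have h2' := h2
    rw [Function.iterate_one, hDA] at h2'
    rw [h2']
    rfl
  have key : ∀ z : ℍ, (2 * π * I : ℂ) * G z = ∑ x : OnePoint (ZMod ℓ), A (heckeRep ℓ x • z) := by
    intro z
    rw [← heckeT_zero_apply, hB]
    rfl
  have hper := sum_comp_smul_sub (F := F) (φ := fun δ => periodMap N f (Additive.ofMul δ))
    (fun δ z => (Fermat.Agent.S21.periodMap_apply hF δ z).symm) (heckeRep ℓ)
    σ γ δ hmul UpperHalfPlane.I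
  rw [Fermat.Agent.S21.periodMap_apply hG γ UpperHalfPlane.I, ← hper]
  have e1 := key ((γ : SL(2, ℤ)) • UpperHalfPlane.I)
  have e2 := key UpperHalfPlane.I
  simp only [hAdef, Pi.smul_apply, smul_eq_mul, ← Finset.mul_sum] at e1 e2
  have e3 := mul_left_cancel₀ h2pi e1
  have e4 := mul_left_cancel₀ h2pi e2
  rw [e3, e4]

/-- Weight `0`: `p • U_p A` is the sum of `A` over the representatives `[1 j; 0 p]`. -/
theorem heckeU_zero_apply {p : ℕ} [NeZero p] (A : ℍ → ℂ) (z : ℍ) :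
    (((p : ℂ) ^ (0 + 1)) • ModularForm.heckeU (-((0 : ℕ) : ℤ)) p A) z =
      ∑ x : ZMod p, A (ModularForm.heckeMatrix p x.val • z) := by
  have hp : p ≠ 0 := NeZero.ne p
  have hp' : (p : ℂ) ≠ 0 := by exact_mod_cast hp
  rw [heckeU_eq_sum_zmod]
  simp only [Pi.smul_apply, Finset.sum_apply, smul_eq_mul, Finset.mul_sum]
  refine Finset.sum_congr rfl fun x _ => ?_
  rw [ModularForm.slash_heckeMatrix_apply _ hp]
  simp only [zero_add, pow_one]
  rw [← mul_assoc, mul_inv_cancel₀ hp', one_mul]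

/-- **Bridge for `U_p`** (`p ∣ N`). -/
theorem periodMap_heckeU {N : ℕ} [NeZero N] {p : ℕ} [NeZero p] (hpN : p ∣ N)
    (f : CuspForm (Gamma0 N) 2) (γ : Gamma0 N) (σ : Equiv.Perm (ZMod p))
    (δ : ZMod p → Gamma0 N)
    (hmul : ∀ x : ZMod p, ModularForm.heckeMatrix p x.val * mapGL ℝ (γ : SL(2, ℤ)) =
      mapGL ℝ (δ x : SL(2, ℤ)) * ModularForm.heckeMatrix p (σ x).val) :
    periodMap N (CuspForm.heckeULin 2 hpN f) (Additive.ofMul γ) =
      ∑ x, periodMap N f (Additive.ofMul (δ x)) := by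
  have hp : p ≠ 0 := NeZero.ne p
  have h2pi : (2 * π * I : ℂ) ≠ 0 := Complex.two_pi_I_ne_zero
  obtain ⟨F, hF, hFd⟩ := Fermat.Agent.S21.exists_hasEquivariantPrimitive N f
  obtain ⟨G, hG, hGd⟩ := Fermat.Agent.S21.exists_hasEquivariantPrimitive N
    (CuspForm.heckeULin 2 hpN f)
  set A : ℍ → ℂ := (2 * π * I : ℂ) • F with hAdef
  have hA : MDiff A := hFd.const_smul _
  have hDA : D A = ⇑f := D_two_pi_I_smul hF
  have hAz : IsZeroAtImInfty A := by
    have h : Tendsto (fun x => ((2 * π * I : ℂ)) • F x) atImInfty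
        (𝓝 (((2 * π * I : ℂ)) • (0 : ℂ))) := Filter.Tendsto.const_smul hF.2.1 _
    rw [smul_zero] at h
    exact h
  obtain ⟨h1, h2, h3⟩ := Fermat.Agent.S22.EichlerHecke.eichler_heckeU 0 hp hA hAz
  have hB : ((p : ℂ) ^ (0 + 1)) • ModularForm.heckeU (-((0 : ℕ) : ℤ)) p A = (2 * π * I : ℂ) • G := by
    refine eq_two_pi_I_smul_of_D_eq hG hGd h1 ?_ h3
    have h2' := h2
    rw [Function.iterate_one, hDA] at h2'
    rw [h2']
    rfl
  have key : ∀ z : ℍ, (2 * π * I : ℂ) * G z =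
      ∑ x : ZMod p, A (ModularForm.heckeMatrix p x.val • z) := by
    intro z
    rw [← heckeU_zero_apply, hB]
    rfl
  have hper := sum_comp_smul_sub (F := F) (φ := fun δ => periodMap N f (Additive.ofMul δ))
    (fun δ z => (Fermat.Agent.S21.periodMap_apply hF δ z).symm)
    (fun x : ZMod p => ModularForm.heckeMatrix p x.val) σ γ δ hmul UpperHalfPlane.I
  rw [Fermat.Agent.S21.periodMap_apply hG γ UpperHalfPlane.I, ← hper]
  have e1 := key ((γ : SL(2, ℤ)) • UpperHalfPlane.I)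
  have e2 := key UpperHalfPlane.I
  simp only [hAdef, Pi.smul_apply, smul_eq_mul, ← Finset.mul_sum] at e1 e2
  have e3 := mul_left_cancel₀ h2pi e1
  have e4 := mul_left_cancel₀ h2pi e2
  rw [e3, e4]

end Fermat.Agent.S16.EX
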