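import Mathlib
import Fermat.Prelude.Sol.S_ModularForm_heckeT_slash_eq_self_of_mem_Gamma0
import Fermat.Agent.ESJ.ParHom.Quot

/-!
# S16 (EX): the Shimura class `χ : Γ₀(p) → (ℤ/p)ˣ`, `γ ↦ (d mod p)^gcd(p-1,12)`

* `dHom p : Γ₀(p) →* (ZMod p)ˣ` (lower right entry), surjective;
* `chi p = (dHom p)^ν`, `ν = gcd (p-1) 12`; it kills every `γ` with `tr² ≤ 4`;
* the eigen-relations of `dHom` with respect to the Hecke coset representatives;
* exactness: `(∀ γ, chi γ ^ e = 1) → n ∣ e` with `n = (p-1)/ν`.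
-/

set_option autoImplicit false

open scoped MatrixGroups
open CongruenceSubgroup Matrix.SpecialLinearGroup
open P2MW.S_ModularForm_heckeT_slash_eq_self_of_mem_Gamma0.ModularForm.HeckeSlashInvariance

namespace Fermat.Agent.S16.EX

variable (p : ℕ) [Fact p.Prime]

theorem gamma0_apply_one_zero (γ : Gamma0 p) :
    ((((γ : SL(2, ℤ)) 1 0 : ℤ)) : ZMod p) = 0 :=
  Gamma0_mem.mp γ.2

/-- The lower right entry of `γ ∈ Γ₀(p)` as a unit mod `p`. -/
noncomputable def dUnit (γ : Gamma0 p) : (ZMod p)ˣ :=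
  Units.mkOfMulEqOne ((((γ : SL(2, ℤ)) 1 1 : ℤ)) : ZMod p) ((((γ : SL(2, ℤ)) 0 0 : ℤ)) : ZMod p)
    (by rw [mul_comm]; exact unit_of_apply_one_zero_eq_zero _ (gamma0_apply_one_zero p γ))

@[simp] theorem dUnit_val (γ : Gamma0 p) :
    ((dUnit p γ : (ZMod p)ˣ) : ZMod p) = ((((γ : SL(2, ℤ)) 1 1 : ℤ)) : ZMod p) := rfl

/-- `γ ↦ d(γ) mod p` as a group homomorphism. -/
noncomputable def dHom : Gamma0 p →* (ZMod p)ˣ where
  toFun := dUnit p
  map_one' := by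
    apply Units.ext
    simp
  map_mul' γ γ' := by
    apply Units.ext
    rw [Units.val_mul, dUnit_val, dUnit_val, dUnit_val]
    have h : ((γ * γ' : Gamma0 p) : SL(2, ℤ)) 1 1 =
        (γ : SL(2, ℤ)) 1 0 * (γ' : SL(2, ℤ)) 0 1 + (γ : SL(2, ℤ)) 1 1 * (γ' : SL(2, ℤ)) 1 1 := by
      rw [Subgroup.coe_mul, Matrix.SpecialLinearGroup.coe_mul, Matrix.mul_apply, Fin.sum_univ_two]
    rw [h]
    push_cast
    rw [gamma0_apply_one_zero p γ]
    ring

@[simp] theorem dHom_val (γ : Gamma0 p) :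
    ((dHom p γ : (ZMod p)ˣ) : ZMod p) = ((((γ : SL(2, ℤ)) 1 1 : ℤ)) : ZMod p) := rfl

theorem dHom_surjective : Function.Surjective (dHom p) := by
  intro u
  have hp := (Fact.out : p.Prime)
  set d : ℕ := (u : ZMod p).val with hd
  have hd0 : ((d : ℕ) : ZMod p) = (u : ZMod p) := ZMod.natCast_zmod_val _
  have hnd : ¬ p ∣ d := by
    intro hdvd
    have h0 : ((d : ℕ) : ZMod p) = 0 := (ZMod.natCast_eq_zero_iff d p).mpr hdvd
    rw [hd0] at h0
    exact u.ne_zero h0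
  have hcop : IsCoprime (d : ℤ) (p : ℤ) :=
    Nat.isCoprime_iff_coprime.mpr ((Nat.Prime.coprime_iff_not_dvd hp).mpr hnd).symm
  obtain ⟨a, b, hab⟩ := hcop
  have hdet : (!![a, -b; (p : ℤ), (d : ℤ)] : Matrix (Fin 2) (Fin 2) ℤ).det = 1 := by
    rw [Matrix.det_fin_two_of]
    linarith
  set g : SL(2, ℤ) := ⟨!![a, -b; (p : ℤ), (d : ℤ)], hdet⟩ with hg
  have hg10 : g 1 0 = (p : ℤ) := rfl
  have hg11 : g 1 1 = (d : ℤ) := rfl
  have hmem : g ∈ Gamma0 p := by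
    rw [Gamma0_mem, hg10]
    simp
  refine ⟨⟨g, hmem⟩, ?_⟩
  apply Units.ext
  rw [dHom_val]
  show (((g 1 1 : ℤ)) : ZMod p) = (u : ZMod p)
  rw [hg11]
  simpa using hd0

/-- `d^12 = 1` for every `γ ∈ Γ₀(p)` with `tr² ≤ 4`. -/
theorem dHom_pow_twelve (γ : Gamma0 p)
    (h : ((γ : SL(2, ℤ)) : Matrix (Fin 2) (Fin 2) ℤ).trace ^ 2 ≤ 4) : dHom p γ ^ 12 = 1 := by
  apply Units.ext
  rw [Units.val_pow_eq_pow_val, dHom_val, Units.val_one]
  have had := unit_of_apply_one_zero_eq_zero (γ : SL(2, ℤ)) (gamma0_apply_one_zero p γ)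
  rw [Matrix.trace_fin_two] at h
  set a : ZMod p := ((((γ : SL(2, ℤ)) 0 0 : ℤ)) : ZMod p) with ha
  set d : ZMod p := ((((γ : SL(2, ℤ)) 1 1 : ℤ)) : ZMod p) with hd
  obtain ⟨t, ht⟩ : ∃ t : ℤ, t = (γ : SL(2, ℤ)) 0 0 + (γ : SL(2, ℤ)) 1 1 := ⟨_, rfl⟩
  have hsum : a + d = (t : ZMod p) := by
    rw [ht]
    push_cast
    rfl
  have ht2 : t ^ 2 ≤ 4 := by rw [ht]; exact h
  have hlo : -2 ≤ t := by nlinarith
  have hhi : t ≤ 2 := by nlinarith
  have hq : d ^ 2 - (t : ZMod p) * d + 1 = 0 := by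
    linear_combination (-1 : ZMod p) * had + d * hsum
  interval_cases t
  · -- t = -2 : (d + 1)^2 = 0
    have h1 : (d + 1) ^ 2 = 0 := by
      push_cast at hq
      linear_combination hq
    have h2 : d = -1 := by
      have := pow_eq_zero_iff (two_ne_zero) |>.mp h1
      linear_combination this
    rw [h2]
    norm_num
  · -- t = -1 : d^2 + d + 1 = 0
    push_cast at hq
    linear_combination ((d - 1) * (d ^ 9 + d ^ 6 + d ^ 3 + 1)) * hq
  · -- t = 0 : d^2 + 1 = 0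
    push_cast at hq
    linear_combination (d ^ 10 - d ^ 8 + d ^ 6 - d ^ 4 + d ^ 2 - 1) * hq
  · -- t = 1 : d^2 - d + 1 = 0
    push_cast at hq
    linear_combination ((d ^ 3 - 1) * (d + 1) * (d ^ 6 + 1)) * hq
  · -- t = 2 : (d - 1)^2 = 0
    have h1 : (d - 1) ^ 2 = 0 := by
      push_cast at hq
      linear_combination hq
    have h2 : d = 1 := by
      have := pow_eq_zero_iff (two_ne_zero) |>.mp h1
      linear_combination this
    rw [h2]
    norm_num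

/-- The Shimura class. -/
noncomputable def chi : Gamma0 p →* (ZMod p)ˣ :=
  (powMonoidHom (Nat.gcd (p - 1) 12)).comp (dHom p)

theorem chi_apply (γ : Gamma0 p) : chi p γ = dHom p γ ^ Nat.gcd (p - 1) 12 := rfl

/-- `χ` kills every element with `tr² ≤ 4` (`±1`, parabolic and elliptic elements). -/
theorem chi_eq_one_of_trace (γ : Gamma0 p)
    (h : ((γ : SL(2, ℤ)) : Matrix (Fin 2) (Fin 2) ℤ).trace ^ 2 ≤ 4) : chi p γ = 1 := by
  rw [chi_apply, ← orderOf_dvd_iff_pow_eq_one]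
  exact Nat.dvd_gcd (orderOf_dvd_of_pow_eq_one (ZMod.units_pow_card_sub_one_eq_one p _))
    (orderOf_dvd_of_pow_eq_one (dHom_pow_twelve p γ h))

theorem isPEHom_chi :
    Fermat.Agent.ESJ.ParHom.IsPEHom (Gamma0 p) (MonoidHom.toAdditive (chi p)) := by
  intro γ hγ
  show Additive.ofMul (chi p γ) = 0
  rw [chi_eq_one_of_trace p γ hγ]
  rfl

/-! ### Entries of the Hecke coset representatives -/

/-- Lower right entry of the representative `heckeRep ℓ x`. -/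
def dRep (ℓ : ℕ) (x : OnePoint (ZMod ℓ)) : ℕ := x.elim 1 (fun _ => ℓ)

/-- Upper right entry of the representative `heckeRep ℓ x`. -/
def bRep (ℓ : ℕ) (x : OnePoint (ZMod ℓ)) : ℕ := x.elim 0 (fun j => j.val)

omit [Fact p.Prime] in
theorem heckeRep_mul_entry {ℓ : ℕ} (hℓ : ℓ ≠ 0) (g g' : SL(2, ℤ)) (x y : OnePoint (ZMod ℓ))
    (hmul : heckeRep ℓ x * mapGL ℝ g = mapGL ℝ g' * heckeRep ℓ y) :
    (dRep ℓ x : ℤ) * g 1 1 = g' 1 0 * (bRep ℓ y : ℤ) + g' 1 1 * (dRep ℓ y : ℤ) := by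
  have h := congrArg (fun M : GL (Fin 2) ℝ => (M : Matrix (Fin 2) (Fin 2) ℝ) 1 1) hmul
  simp only [Units.val_mul, Matrix.mul_apply, Fin.sum_univ_two] at h
  have e : ∀ (g : SL(2, ℤ)) (i j : Fin 2),
      ((mapGL ℝ g : GL (Fin 2) ℝ) : Matrix (Fin 2) (Fin 2) ℝ) i j = ((g i j : ℤ) : ℝ) :=
    fun g i j => mapGL_apply g i j
  simp only [e] at h
  induction x using OnePoint.rec with
  | infty =>
    induction y using OnePoint.rec with
    | infty =>
      simp only [heckeRep_infty, ModularForm.val_heckeDiagMatrix hℓ] at h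
      simp only [dRep, bRep, OnePoint.elim_infty]
      simp at h
      have h' : (g 1 1 : ℤ) = g' 1 1 := by exact_mod_cast h
      push_cast
      linarith
    | coe j =>
      simp only [heckeRep_infty, heckeRep_coe, ModularForm.val_heckeDiagMatrix hℓ,
        ModularForm.val_heckeMatrix hℓ] at h
      simp only [dRep, bRep, OnePoint.elim_infty, OnePoint.elim_some]
      simp at h
      have h' : (g 1 1 : ℤ) = g' 1 0 * (j.val : ℤ) + g' 1 1 * (ℓ : ℤ) := by exact_mod_cast h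
      push_cast
      linarith
  | coe i =>
    induction y using OnePoint.rec with
    | infty =>
      simp only [heckeRep_infty, heckeRep_coe, ModularForm.val_heckeDiagMatrix hℓ,
        ModularForm.val_heckeMatrix hℓ] at h
      simp only [dRep, bRep, OnePoint.elim_infty, OnePoint.elim_some]
      simp at h
      have h' : (ℓ : ℤ) * g 1 1 = g' 1 1 := by exact_mod_cast h
      push_cast
      linarith
    | coe j =>
      simp only [heckeRep_coe, ModularForm.val_heckeMatrix hℓ] at h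
      simp only [dRep, bRep, OnePoint.elim_some]
      simp at h
      exact_mod_cast h

theorem dRep_ne_zero {ℓ : ℕ} [Fact ℓ.Prime] (hℓp : ℓ ≠ p) (x : OnePoint (ZMod ℓ)) :
    ((dRep ℓ x : ℕ) : ZMod p) ≠ 0 := by
  induction x using OnePoint.rec with
  | infty => simp [dRep]
  | coe j =>
    simp only [dRep, OnePoint.elim_some]
    rw [Ne, ZMod.natCast_eq_zero_iff]
    intro h
    exact hℓp ((Nat.prime_dvd_prime_iff_eq (Fact.out : p.Prime) (Fact.out : ℓ.Prime)).mp h).symm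

/-- `dRep ℓ x` as a unit mod `p`. -/
noncomputable def uRep {ℓ : ℕ} [Fact ℓ.Prime] (hℓp : ℓ ≠ p) (x : OnePoint (ZMod ℓ)) : (ZMod p)ˣ :=
  Units.mk0 _ (dRep_ne_zero p hℓp x)

theorem uRep_mul_dHom {ℓ : ℕ} [Fact ℓ.Prime] (hℓp : ℓ ≠ p) (γ δ : Gamma0 p)
    (x y : OnePoint (ZMod ℓ))
    (hmul : heckeRep ℓ x * mapGL ℝ (γ : SL(2, ℤ)) = mapGL ℝ (δ : SL(2, ℤ)) * heckeRep ℓ y) :
    uRep p hℓp x * dHom p γ = dHom p δ * uRep p hℓp y := by
  apply Units.ext
  simp only [Units.val_mul, uRep, Units.val_mk0, dHom_val]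
  have h := congrArg (Int.cast : ℤ → ZMod p)
    (heckeRep_mul_entry (Fact.out : ℓ.Prime).ne_zero (γ : SL(2, ℤ)) (δ : SL(2, ℤ)) x y hmul)
  push_cast at h
  rw [gamma0_apply_one_zero p δ] at h
  linear_combination h

/-- **Eigen-relation for `T_ℓ`**, `ℓ ≠ p`. -/
theorem prod_dHom_heckeT {ℓ : ℕ} [Fact ℓ.Prime] (hℓp : ℓ ≠ p) (γ : Gamma0 p)
    (σ : Equiv.Perm (OnePoint (ZMod ℓ))) (δ : OnePoint (ZMod ℓ) → Gamma0 p)
    (hmul : ∀ x, heckeRep ℓ x * mapGL ℝ (γ : SL(2, ℤ)) =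
      mapGL ℝ (δ x : SL(2, ℤ)) * heckeRep ℓ (σ x)) :
    ∏ x, dHom p (δ x) = dHom p γ ^ (ℓ + 1) := by
  have h : ∀ x, dHom p (δ x) = uRep p hℓp x * dHom p γ * (uRep p hℓp (σ x))⁻¹ := by
    intro x
    rw [uRep_mul_dHom p hℓp γ (δ x) x (σ x) (hmul x), mul_inv_cancel_right]
  simp_rw [h]
  rw [Finset.prod_mul_distrib, Finset.prod_mul_distrib, Finset.prod_inv_distrib,
    Equiv.prod_comp σ (fun x => uRep p hℓp x), Finset.prod_const, Finset.card_univ]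
  have hcard : Fintype.card (OnePoint (ZMod ℓ)) = ℓ + 1 := by
    rw [show Fintype.card (OnePoint (ZMod ℓ)) = Fintype.card (Option (ZMod ℓ)) from rfl,
      Fintype.card_option, ZMod.card]
  rw [hcard, mul_comm, ← mul_assoc, inv_mul_cancel, one_mul]

theorem dHom_eq_of_heckeMatrix_mul (γ δ : Gamma0 p) (j j' : ℕ)
    (hmul : ModularForm.heckeMatrix p j * mapGL ℝ (γ : SL(2, ℤ)) =
      mapGL ℝ (δ : SL(2, ℤ)) * ModularForm.heckeMatrix p j') :
    dHom p δ = dHom p γ := by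
  have hp0 : p ≠ 0 := (Fact.out : p.Prime).ne_zero
  have h := congrArg (fun M : GL (Fin 2) ℝ => (M : Matrix (Fin 2) (Fin 2) ℝ) 0 0) hmul
  have e : ∀ (g : SL(2, ℤ)) (i j : Fin 2),
      ((mapGL ℝ g : GL (Fin 2) ℝ) : Matrix (Fin 2) (Fin 2) ℝ) i j = ((g i j : ℤ) : ℝ) :=
    fun g i j => mapGL_apply g i j
  simp only [Units.val_mul, Matrix.mul_apply, Fin.sum_univ_two, e,
    ModularForm.val_heckeMatrix hp0] at h
  simp at h
  have h' : ((γ : SL(2, ℤ)) 0 0 : ℤ) + (j : ℤ) * (γ : SL(2, ℤ)) 1 0 = (δ : SL(2, ℤ)) 0 0 := by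
    exact_mod_cast h
  have h'' := congrArg (Int.cast : ℤ → ZMod p) h'
  push_cast at h''
  rw [gamma0_apply_one_zero p γ] at h''
  have hγ := unit_of_apply_one_zero_eq_zero (γ : SL(2, ℤ)) (gamma0_apply_one_zero p γ)
  have hδ := unit_of_apply_one_zero_eq_zero (δ : SL(2, ℤ)) (gamma0_apply_one_zero p δ)
  apply Units.ext
  rw [dHom_val, dHom_val]
  linear_combination
    ((((δ : SL(2, ℤ)) 1 1 : ℤ) : ZMod p) * (((γ : SL(2, ℤ)) 1 1 : ℤ) : ZMod p)) * h''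
      - (((δ : SL(2, ℤ)) 1 1 : ℤ) : ZMod p) * hγ + (((γ : SL(2, ℤ)) 1 1 : ℤ) : ZMod p) * hδ

/-- **Eigen-relation for `U_p`**. -/
theorem prod_dHom_heckeU (γ : Gamma0 p) (σ : Equiv.Perm (ZMod p)) (δ : ZMod p → Gamma0 p)
    (hmul : ∀ x : ZMod p, ModularForm.heckeMatrix p x.val * mapGL ℝ (γ : SL(2, ℤ)) =
      mapGL ℝ (δ x : SL(2, ℤ)) * ModularForm.heckeMatrix p (σ x).val) :
    ∏ x, dHom p (δ x) = dHom p γ := by
  have h : ∀ x, dHom p (δ x) = dHom p γ :=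
    fun x => dHom_eq_of_heckeMatrix_mul p γ (δ x) _ _ (hmul x)
  simp_rw [h]
  rw [Finset.prod_const, Finset.card_univ, ZMod.card]
  have h1 := ZMod.units_pow_card_sub_one_eq_one p (dHom p γ)
  calc dHom p γ ^ p = dHom p γ ^ (p - 1 + 1) := by
        rw [Nat.sub_add_cancel (Fact.out : p.Prime).one_le]
    _ = dHom p γ := by rw [pow_succ, h1, one_mul]

/-- **Exactness**: `χ` has exact order `n = (p-1)/gcd(p-1,12)`. -/
theorem dvd_of_chi_zpow_eq_one (e : ℤ) (h : ∀ γ : Gamma0 p, chi p γ ^ e = 1) :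
    (((p - 1) / Nat.gcd (p - 1) 12 : ℕ) : ℤ) ∣ e := by
  obtain ⟨g, hg⟩ := IsCyclic.exists_generator (α := (ZMod p)ˣ)
  obtain ⟨γ, rfl⟩ := dHom_surjective p g
  have hord : orderOf (dHom p γ) = p - 1 := by
    rw [orderOf_eq_card_of_forall_mem_zpowers hg, Nat.card_eq_fintype_card, ZMod.card_units]
  have h1 := h γ
  rw [chi_apply, ← zpow_natCast, ← zpow_mul] at h1
  have h2 : ((p - 1 : ℕ) : ℤ) ∣ (Nat.gcd (p - 1) 12 : ℤ) * e := by
    have h2' := orderOf_dvd_iff_zpow_eq_one.mpr h1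
    rwa [hord] at h2'
  have hν : 0 < Nat.gcd (p - 1) 12 := Nat.gcd_pos_of_pos_right _ (by norm_num)
  have hdiv : (p - 1) / Nat.gcd (p - 1) 12 * Nat.gcd (p - 1) 12 = p - 1 :=
    Nat.div_mul_cancel (Nat.gcd_dvd_left _ _)
  have h3 : (((p - 1) / Nat.gcd (p - 1) 12 * Nat.gcd (p - 1) 12 : ℕ) : ℤ) ∣
      (Nat.gcd (p - 1) 12 : ℤ) * e := by
    rw [hdiv]
    exact h2
  rw [Nat.cast_mul, mul_comm] at h3
  exact (mul_dvd_mul_iff_left (by exact_mod_cast hν.ne')).mp h3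

end Fermat.Agent.S16.EX
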