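import Mathlib
import Fermat.Agent.S21
import Fermat.Agent.ESJ.ParHom.Free

/-!
# S16 / EX (4): periods separate `Γ₀(N)^ab / ⟨parabolic, elliptic⟩`

If `γ ∈ Γ₀(N)` has `periodMap N f γ = 0` for **every** cusp form `f ∈ S₂(Γ₀(N))`, then the class
of `γ` in `PEQuot (Γ₀(N)) = Γ₀(N)^ab / ⟨tr² ≤ 4⟩` is zero.

Ingredients: `PEQuot (Γ₀(N)) ≃ ℤ^{2g}` (ESJ/ParHom), Eichler–Shimura (`S21.result`), and the
"complex conjugate" cusp form `f^c(z) = conj (f (-conj z))`, whose periods are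
`periodMap f^c γ = - conj (periodMap f (jγj))`.
-/

set_option autoImplicit false

open UpperHalfPlane hiding I
open Complex Filter Function Topology
open scoped MatrixGroups Manifold ModularForm Real ComplexConjugate
open CongruenceSubgroup ModularCurve ModularCurve.Period

namespace Fermat.Agent.S16.EX.PeriodInj

open Fermat.Agent.S21 Fermat.Agent.ESJ.ParHom

/-! ### The anti-holomorphic involution normalises `Γ₀(N)` -/

theorem J_mul_mapGL (γ : SL(2, ℤ)) :
    J * (Matrix.SpecialLinearGroup.mapGL ℝ γ : GL (Fin 2) ℝ)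
      = (Matrix.SpecialLinearGroup.mapGL ℝ (jConjSL γ) : GL (Fin 2) ℝ) * J := by
  ext i j
  fin_cases i <;> fin_cases j <;>
    simp [J, jConjMat, Matrix.mul_apply, Fin.sum_univ_two]

theorem J_mul_J : (J : GL (Fin 2) ℝ) * J = 1 := by
  rw [← sq, J_sq]

theorem J_inv : (J : GL (Fin 2) ℝ)⁻¹ = J :=
  inv_eq_of_mul_eq_one_left J_mul_J

open ConjAct Pointwise in
theorem conjAct_J_smul_Gamma0 (N : ℕ) :
    toConjAct (J : GL (Fin 2) ℝ)⁻¹ • ((Gamma0 N).map (Matrix.SpecialLinearGroup.mapGL ℝ))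
      = (Gamma0 N).map (Matrix.SpecialLinearGroup.mapGL ℝ) := by
  ext g
  rw [Subgroup.mem_pointwise_smul_iff_inv_smul_mem, ← map_inv, inv_inv, ConjAct.toConjAct_smul,
    J_inv]
  constructor
  · rintro ⟨γ, hγ, hγg⟩
    refine ⟨jConjSL γ, jConjSL_mem_Gamma0 hγ, ?_⟩
    have h1 : g = J * (Matrix.SpecialLinearGroup.mapGL ℝ γ : GL (Fin 2) ℝ) * J := by
      rw [hγg, mul_assoc, mul_assoc, J_mul_J, mul_one, ← mul_assoc, J_mul_J, one_mul]
    rw [h1, J_mul_mapGL, mul_assoc, J_mul_J, mul_one]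
  · rintro ⟨γ, hγ, rfl⟩
    refine ⟨jConjSL γ, jConjSL_mem_Gamma0 hγ, ?_⟩
    rw [J_mul_mapGL, mul_assoc, J_mul_J, mul_one]

/-! ### The conjugate cusp form -/

theorem coe_cast_cuspForm {Γ Γ' : Subgroup (GL (Fin 2) ℝ)} {k : ℤ} (h : Γ = Γ')
    (f : CuspForm Γ k) : ⇑(h ▸ f : CuspForm Γ' k) = ⇑f := by
  subst h
  rfl

/-- The conjugate cusp form `f^c(z) = conj (f (-conj z))`. -/
noncomputable def conjForm {N : ℕ} (f : CuspForm (Gamma0 N) 2) : CuspForm (Gamma0 N) 2 :=
  (conjAct_J_smul_Gamma0 N) ▸ CuspForm.translate f J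

theorem coe_conjForm {N : ℕ} (f : CuspForm (Gamma0 N) 2) :
    ⇑(conjForm f) = ⇑f ∣[(2 : ℤ)] J := by
  unfold conjForm
  rw [coe_cast_cuspForm]
  rfl

theorem conjForm_apply {N : ℕ} (f : CuspForm (Gamma0 N) 2) (z : ℍ) :
    conjForm f z = conj (f (J • z)) := by
  rw [coe_conjForm, ModularForm.slash_apply]
  simp

/-! ### Periods of the conjugate form -/

/-- If `F` is an equivariant primitive of `f`, then `z ↦ - conj (F (-conj z))` is an equivariant
primitive of `conjForm f`. -/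
theorem hasEquivariantPrimitive_conjForm {N : ℕ} {f : CuspForm (Gamma0 N) 2} {F : ℍ → ℂ}
    (hF : HasEquivariantPrimitive N f F) :
    HasEquivariantPrimitive N (conjForm f) (fun z => -conjFun F z) := by
  refine ⟨fun τ => ?_, ?_, fun γ => ?_, fun δ => ?_⟩
  · -- derivative
    have h1 := (hF.1 (J • τ)).conj_conj
    have h2 : conj ((J • τ : ℍ) : ℂ) = -(τ : ℂ) := by
      rw [coe_J_smul, map_neg, Complex.conj_conj]
    rw [h2] at h1
    have h3 : HasDerivAt (fun w : ℂ => -w) (-1) (τ : ℂ) := hasDerivAt_neg' (τ : ℂ)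
    have h4 := (HasDerivAt.comp (τ : ℂ) h1 h3).neg
    have h5 : -(conj (f (J • τ)) * -1) = conjForm f τ := by
      rw [conjForm_apply]; ring
    rw [h5] at h4
    refine h4.congr_of_eventuallyEq ?_
    filter_upwards [isOpen_upperHalfPlaneSet.mem_nhds τ.im_pos] with w hw
    have hw' : 0 < w.im := hw
    simp only [comp_apply, conjFun, Pi.neg_apply]
    congr 3
    rw [J_smul, ofComplex_apply_of_im_pos hw', map_neg]
  · -- limit at `i∞`
    have h1 : Tendsto (fun w : ℍ => F (J • w)) atImInfty (𝓝 0) := hF.2.1.comp tendsto_J_smul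
    have h2 := ((Complex.continuous_conj.tendsto (0 : ℂ)).comp h1).neg
    simp only [map_zero, neg_zero] at h2
    exact h2
  · -- equivariance
    obtain ⟨c, hc⟩ := hF.2.2.1 (jConjGamma0 N γ)
    refine ⟨-conj c, fun z => ?_⟩
    have h := hc (J • z)
    rw [jConjGamma0_coe, ← J_smul_smul] at h
    simp only [conjFun]
    rw [← h, map_sub]
    ring
  · -- limits at the cusps
    obtain ⟨L, hL⟩ := tendsto_conjFun_smul hF δ
    exact ⟨-L, hL.neg⟩

/-- Periods of the conjugate form. -/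
theorem periodMap_conjForm {N : ℕ} [NeZero N] (f : CuspForm (Gamma0 N) 2) (γ : Gamma0 N) :
    periodMap N (conjForm f) (Additive.ofMul γ)
      = -conj (periodMap N f (Additive.ofMul (jConjGamma0 N γ))) := by
  obtain ⟨F, hF, -⟩ := exists_hasEquivariantPrimitive N f
  rw [periodMap_apply (hasEquivariantPrimitive_conjForm hF) γ UpperHalfPlane.I,
    periodMap_apply hF (jConjGamma0 N γ) (J • UpperHalfPlane.I)]
  simp only [conjFun]
  rw [jConjGamma0_coe, ← J_smul_smul, map_sub]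
  ring

/-- Periods along the conjugated element `jγj`. -/
theorem periodMap_jConj {N : ℕ} [NeZero N] (f : CuspForm (Gamma0 N) 2) (γ : Gamma0 N) :
    periodMap N f (Additive.ofMul (jConjGamma0 N γ))
      = -conj (periodMap N (conjForm f) (Additive.ofMul γ)) := by
  rw [periodMap_conjForm, map_neg, Complex.conj_conj, neg_neg]

end Fermat.Agent.S16.EX.PeriodInj

namespace Fermat.Agent.S16.EX

open Fermat.Agent.S21 Fermat.Agent.ESJ.ParHom Fermat.Agent.S16.EX.PeriodInj

/-! ### Periods separate `PEQuot (Γ₀(N))` -/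

/-- **Period injectivity on `H₁`**: an element of `Γ₀(N)` all of whose cusp-form periods vanish
is trivial in `Γ₀(N)^ab / ⟨parabolic, elliptic, ±1⟩`. -/
theorem peProj_eq_zero_of_periodMap_eq_zero (N : ℕ) [NeZero N]
    (γ : CongruenceSubgroup.Gamma0 N)
    (h : ∀ f : CuspForm (CongruenceSubgroup.Gamma0 N) 2,
      ModularCurve.periodMap N f (Additive.ofMul γ) = 0) :
    Fermat.Agent.ESJ.ParHom.peProj (CongruenceSubgroup.Gamma0 N) (Additive.ofMul γ) = 0 := by
  obtain ⟨g, hg⟩ := exists_nat_genus N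
  obtain ⟨e⟩ := nonempty_PEQuot_equiv N g hg
  by_contra hne
  have hex : e (peProj (Gamma0 N) (Additive.ofMul γ)) ≠ 0 := by
    intro h0
    exact hne (by simpa using h0)
  obtain ⟨i, hi⟩ : ∃ i, e (peProj (Gamma0 N) (Additive.ofMul γ)) i ≠ 0 := by
    by_contra hcon
    exact hex (funext fun i => not_not.mp fun hi => hcon ⟨i, hi⟩)
  -- the `i`-th coordinate, as a complex-valued parabolic homomorphism
  let ψ₀ : PEQuot (Gamma0 N) →+ ℂ :=
    ((Int.castAddHom ℂ).comp (Pi.evalAddMonoidHom (fun _ : Fin (2 * g) => ℤ) i)).comp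
      e.toAddMonoidHom
  have hψpar : ψ₀.comp (peProj (Gamma0 N)) ∈ parabolicHoms ℂ (Gamma0 N) ℂ :=
    (isPEHom_comp_peProj ψ₀).isParabolicHom
  obtain ⟨-, hrange⟩ := Fermat.Agent.S21.result N
  rw [← hrange] at hψpar
  obtain ⟨⟨a, b⟩, hab⟩ := hψpar
  have h0 : (ψ₀.comp (peProj (Gamma0 N))) (Additive.ofMul γ) = 0 := by
    rw [← hab, periodHomPair_apply, AddMonoidHom.add_apply, charInvolution_apply, toMul_ofMul,
      h, periodMap_jConj, h]
    simp
  apply hi
  have h1 : (ψ₀.comp (peProj (Gamma0 N))) (Additive.ofMul γ)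
      = ((e (peProj (Gamma0 N) (Additive.ofMul γ)) i : ℤ) : ℂ) := rfl
  rw [h1] at h0
  exact_mod_cast h0

end Fermat.Agent.S16.EX
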