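import Mathlib
import Fermat.Prelude.Def_CuspForm_HeckeEvalForms
import Fermat.Prelude.Def_ModularCurve_ModularUnit
import Fermat.Agent.S16.EX.Bridge
import Fermat.Agent.S16.EX.Chi
import Fermat.Agent.S16.EX.PeriodInj

/-!
# S16 (EX): the lower bound `n ∣ P(eis)` for every Hecke polynomial `P` killing `S₂(Γ₀(p))`

`n = (p-1)/gcd(p-1,12)`.  The proof uses the Shimura class `χ` (`Chi.lean`), the behaviour of
periods under Hecke operators (`Bridge.lean`) and the injectivity of the period pairing on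
`H₁(X₀(p), ℤ)` (`PeriodInj.lean`).
-/

set_option autoImplicit false

open scoped MatrixGroups
open CongruenceSubgroup Matrix.SpecialLinearGroup ModularCurve ModularCurve.Period CuspForm
open P2MW.S_ModularForm_heckeT_slash_eq_self_of_mem_Gamma0.ModularForm.HeckeSlashInvariance

namespace Fermat.Agent.S16.EX

variable (p : ℕ) [Fact p.Prime]

/-- A Hecke polynomial as an endomorphism of `S₂(Γ₀(p))`. -/
noncomputable def heckeEnd (P : HeckeAlg) : Module.End ℂ (CuspForm (Gamma0 p) 2) :=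
  ((heckeEvalForms p 2 P : heckeAlgebra p 2 ∅) : Module.End ℂ (CuspForm (Gamma0 p) 2))

/-- The relation propagated along polynomials: along `P`, every `γ` has a "Hecke transform" `γ'`
whose periods are the periods of `P(T) f` along `γ` and on which `χ` is `χ(γ)^(P(eis))`. -/
def Rel (P : HeckeAlg) : Prop :=
  ∀ γ : Gamma0 p, ∃ γ' : Gamma0 p,
    (∀ f : CuspForm (Gamma0 p) 2, periodMap p f (Additive.ofMul γ') =
        periodMap p (heckeEnd p P f) (Additive.ofMul γ)) ∧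
      chi p γ' = chi p γ ^ (MvPolynomial.aeval (eisensteinSystem p) P : ℤ)

theorem periodMap_zsmul (a : ℤ) (f : CuspForm (Gamma0 p) 2) :
    periodMap p (a • f) = a • periodMap p f :=
  map_zsmul (Fermat.Agent.S21.periodMapLin p) a f

theorem periodMap_zero : periodMap p (0 : CuspForm (Gamma0 p) 2) = 0 :=
  map_zero (Fermat.Agent.S21.periodMapLin p)

theorem heckeEnd_C (a : ℤ) (f : CuspForm (Gamma0 p) 2) :
    heckeEnd p (MvPolynomial.C a) f = a • f := by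
  rw [heckeEnd, heckeEvalForms_C, Subalgebra.coe_algebraMap, eq_intCast, Module.End.intCast_apply]

theorem heckeEnd_add (P Q : HeckeAlg) (f : CuspForm (Gamma0 p) 2) :
    heckeEnd p (P + Q) f = heckeEnd p P f + heckeEnd p Q f := by
  rw [heckeEnd, map_add, Subalgebra.coe_add, LinearMap.add_apply]
  rfl

theorem heckeEnd_mul_X (P : HeckeAlg) (ℓ : Nat.Primes) (f : CuspForm (Gamma0 p) 2) :
    heckeEnd p (P * MvPolynomial.X ℓ) f =
      heckeEnd p P (((heckeFormsGen p 2 ℓ : heckeAlgebra p 2 ∅) :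
        Module.End ℂ (CuspForm (Gamma0 p) 2)) f) := by
  have h : heckeEvalForms p 2 (MvPolynomial.X ℓ) = heckeFormsGen p 2 ℓ :=
    heckeEvalForms_heckeGen p 2 ℓ
  rw [heckeEnd, map_mul, h, Subalgebra.coe_mul, Module.End.mul_apply]
  rfl

theorem rel_C (a : ℤ) : Rel p (MvPolynomial.C a) := by
  intro γ
  refine ⟨γ ^ a, fun f => ?_, ?_⟩
  · rw [heckeEnd_C, periodMap_zsmul, ofMul_zpow, map_zsmul]
    rfl
  · rw [map_zpow, MvPolynomial.aeval_C]
    rfl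

theorem rel_add {P Q : HeckeAlg} (hP : Rel p P) (hQ : Rel p Q) : Rel p (P + Q) := by
  intro γ
  obtain ⟨γ₁, h1, c1⟩ := hP γ
  obtain ⟨γ₂, h2, c2⟩ := hQ γ
  refine ⟨γ₁ * γ₂, fun f => ?_, ?_⟩
  · rw [ofMul_mul, map_add, h1 f, h2 f, heckeEnd_add]
    have := Fermat.Agent.S21.periodMap_add p (heckeEnd p P f) (heckeEnd p Q f)
    rw [this]
    rfl
  · rw [map_mul, c1, c2, map_add, zpow_add]

/-- Ordered product of a finite family in a (noncommutative) group. -/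
noncomputable def listProd {ι G : Type*} [Fintype ι] [Group G] (δ : ι → G) : G :=
  ((Finset.univ : Finset ι).toList.map δ).prod

theorem map_listProd {ι G H : Type*} [Fintype ι] [Group G] [CommGroup H] (χ : G →* H)
    (δ : ι → G) : χ (listProd δ) = ∏ x, χ (δ x) := by
  rw [listProd, map_list_prod, List.map_map]
  exact Finset.prod_map_toList _ _

theorem map_ofMul_listProd {ι G A : Type*} [Fintype ι] [Group G] [AddCommGroup A]
    (φ : Additive G →+ A) (δ : ι → G) :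
    φ (Additive.ofMul (listProd δ)) = ∑ x, φ (Additive.ofMul (δ x)) := by
  rw [listProd, ofMul_list_prod, map_list_sum, List.map_map, List.map_map]
  exact Finset.sum_map_toList _ _

/-- Generator step, `ℓ ∤ p`. -/
theorem rel_gen_T (ℓ : Nat.Primes) (h : ¬ (ℓ : ℕ) ∣ p) (γ : Gamma0 p) :
    ∃ γ' : Gamma0 p,
      (∀ f : CuspForm (Gamma0 p) 2, periodMap p f (Additive.ofMul γ') =
        periodMap p (((heckeFormsGen p 2 ℓ : heckeAlgebra p 2 ∅) :
          Module.End ℂ (CuspForm (Gamma0 p) 2)) f) (Additive.ofMul γ)) ∧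
      chi p γ' = chi p γ ^ (eisensteinSystem p ℓ : ℤ) := by
  have : Fact (ℓ : ℕ).Prime := ⟨ℓ.2⟩
  have hℓp : (ℓ : ℕ) ≠ p := fun e => h (e ▸ dvd_rfl)
  have hγN : (p : ℤ) ∣ (γ : SL(2, ℤ)) 1 0 :=
    (ZMod.intCast_zmod_eq_zero_iff_dvd _ _).mp (Gamma0_mem.mp γ.2)
  choose g' hg' hmul using fun x => heckeRep_mul (p := (ℓ : ℕ)) (N := p) h (γ : SL(2, ℤ)) hγN x
  set δ : OnePoint (ZMod (ℓ : ℕ)) → Gamma0 p := fun x =>
    ⟨g' x, Gamma0_mem.mpr ((ZMod.intCast_zmod_eq_zero_iff_dvd _ _).mpr (hg' x))⟩ with hδ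
  set σ : Equiv.Perm (OnePoint (ZMod (ℓ : ℕ))) :=
    MulAction.toPerm (redMatrix (ℓ : ℕ) (γ : SL(2, ℤ))) with hσ
  have hmul' : ∀ x, heckeRep (ℓ : ℕ) x * mapGL ℝ (γ : SL(2, ℤ)) =
      mapGL ℝ (δ x : SL(2, ℤ)) * heckeRep (ℓ : ℕ) (σ x) := hmul
  refine ⟨listProd δ, fun f => ?_, ?_⟩
  · rw [map_ofMul_listProd, heckeFormsGen_of_not_dvd h, heckeAlgebra.coe_T]
    exact (periodMap_heckeT h f γ σ δ hmul').symm
  · rw [map_listProd, eisensteinSystem_of_not_dvd h]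
    simp_rw [chi_apply]
    rw [Finset.prod_pow, prod_dHom_heckeT p hℓp γ σ δ hmul', ← pow_mul, mul_comm, pow_mul,
      show ((1 : ℤ) + ((ℓ : ℕ) : ℤ)) = (((ℓ : ℕ) + 1 : ℕ) : ℤ) by push_cast; ring, zpow_natCast]

/-- Generator step, `ℓ ∣ p` (i.e. `ℓ = p`). -/
theorem rel_gen_U (ℓ : Nat.Primes) (h : (ℓ : ℕ) ∣ p) (γ : Gamma0 p) :
    ∃ γ' : Gamma0 p,
      (∀ f : CuspForm (Gamma0 p) 2, periodMap p f (Additive.ofMul γ') =
        periodMap p (((heckeFormsGen p 2 ℓ : heckeAlgebra p 2 ∅) :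
          Module.End ℂ (CuspForm (Gamma0 p) 2)) f) (Additive.ofMul γ)) ∧
      chi p γ' = chi p γ ^ (eisensteinSystem p ℓ : ℤ) := by
  obtain ⟨ℓ, hℓ⟩ := ℓ
  have hℓp : ℓ = p := (Nat.prime_dvd_prime_iff_eq hℓ (Fact.out : p.Prime)).mp h
  subst hℓp
  have hc : ((((γ : SL(2, ℤ)) 1 0 : ℤ)) : ZMod ℓ) = 0 := gamma0_apply_one_zero ℓ γ
  have hcd : (ℓ : ℤ) ∣ (γ : SL(2, ℤ)) 1 0 := (ZMod.intCast_zmod_eq_zero_iff_dvd _ _).mp hc
  choose g' hg' hmul using fun x => heckeMatrix_mul_of_dvd (p := ℓ) (γ : SL(2, ℤ)) hcd x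
  have hmem : ∀ x, g' x ∈ Gamma0 ℓ := by
    intro x
    rw [Gamma0_mem, hg' x]
    push_cast
    rw [hc, mul_zero]
  set δ : ZMod ℓ → Gamma0 ℓ := fun x => ⟨g' x, hmem x⟩ with hδ
  set σ : Equiv.Perm (ZMod ℓ) :=
    affinePerm (γ : SL(2, ℤ)) ((ZMod.intCast_zmod_eq_zero_iff_dvd _ _).mpr hcd) with hσ
  have hmul' : ∀ x : ZMod ℓ, ModularForm.heckeMatrix ℓ x.val * mapGL ℝ (γ : SL(2, ℤ)) =
      mapGL ℝ (δ x : SL(2, ℤ)) * ModularForm.heckeMatrix ℓ (σ x).val := hmul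
  refine ⟨listProd δ, fun f => ?_, ?_⟩
  · rw [map_ofMul_listProd, heckeFormsGen_of_dvd (N := ℓ) (k := 2) (q := ⟨ℓ, hℓ⟩) h,
      heckeAlgebra.coe_U]
    exact (periodMap_heckeU h f γ σ δ hmul').symm
  · rw [map_listProd, eisensteinSystem_of_dvd (N := ℓ) (ℓ := ⟨ℓ, hℓ⟩) h]
    simp_rw [chi_apply]
    rw [Finset.prod_pow, prod_dHom_heckeU ℓ γ σ δ hmul', zpow_one]

theorem rel_mul_X {P : HeckeAlg} (hP : Rel p P) (ℓ : Nat.Primes) :
    Rel p (P * MvPolynomial.X ℓ) := by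
  intro γ
  obtain ⟨γ₁, h1, c1⟩ := hP γ
  obtain ⟨γ₂, h2, c2⟩ : ∃ γ' : Gamma0 p,
      (∀ f : CuspForm (Gamma0 p) 2, periodMap p f (Additive.ofMul γ') =
        periodMap p (((heckeFormsGen p 2 ℓ : heckeAlgebra p 2 ∅) :
          Module.End ℂ (CuspForm (Gamma0 p) 2)) f) (Additive.ofMul γ₁)) ∧
      chi p γ' = chi p γ₁ ^ (eisensteinSystem p ℓ : ℤ) := by
    by_cases h : (ℓ : ℕ) ∣ p
    · exact rel_gen_U p ℓ h γ₁
    · exact rel_gen_T p ℓ h γ₁
  refine ⟨γ₂, fun f => ?_, ?_⟩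
  · rw [h2 f, h1, heckeEnd_mul_X]
  · rw [c2, c1, ← zpow_mul, map_mul, MvPolynomial.aeval_X]

theorem rel_all (P : HeckeAlg) : Rel p P :=
  MvPolynomial.induction_on P (rel_C p) (fun _ _ hP hQ => rel_add p hP hQ)
    (fun _ ℓ hP => rel_mul_X p hP ℓ)

/-- **(EX), the lower bound for S16**: every Hecke polynomial `P` that kills `S₂(Γ₀(p))`
satisfies `(p-1)/gcd(p-1,12) ∣ P(eis)`. -/
theorem eisensteinNumerator_dvd (P : ModularCurve.HeckeAlg)
    (hP : CuspForm.heckeEvalForms p 2 P = 0) :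
    (ModularCurve.eisensteinNumerator p : ℤ) ∣
      MvPolynomial.aeval (ModularCurve.eisensteinSystem p) P := by
  refine dvd_of_chi_zpow_eq_one p _ fun γ => ?_
  obtain ⟨γ', hper, hchi⟩ := rel_all p P γ
  rw [← hchi]
  have h0 : ∀ f : CuspForm (Gamma0 p) 2, periodMap p f (Additive.ofMul γ') = 0 := by
    intro f
    have hz : heckeEnd p P f = 0 := by
      rw [heckeEnd, hP]
      rfl
    rw [hper f, hz, periodMap_zero]
    rfl
  have h1 := peProj_eq_zero_of_periodMap_eq_zero p γ' h0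
  have h2 := Fermat.Agent.ESJ.ParHom.peLift_peProj (MonoidHom.toAdditive (chi p)) (isPEHom_chi p)
    (Additive.ofMul γ')
  rw [h1, map_zero] at h2
  exact ofMul_eq_zero.mp h2.symm

end Fermat.Agent.S16.EX
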